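/-
P-SS row 646 (SSH-5, GAUSS-SD), helper7.

`modelGaussSD : Nat.Coprime M q → ModelQExp2Statement M q x₀ → ModelAtkinLehnerExistsStatement →
    ModelAtkinLehnerCommStatement → ModelGaussSDStatement M q x₀`

For `f ≠ 0` in the model field `E₀ = ModelField K₁ (M q)` and a coefficientwise "inertia"
automorphism `σ`, the second difference `u = σ²(f) f / σ(f)²` lies in the Gauss closure `C(x)`
and `u - 1 ∈ ϖ C(x)`.

Proof.
* Generic part (`E` any intermediate field of `K₁((t)) / K₁` with Gauss normal forms, `A₀` an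
  abstract discrete valuation ring with fraction field `K₁`): the elements `a / b` with
  `a, b ∈ E ∩ A₀((t))`, `b` primitive, form a valuation subring `gaussVal` of `E`, whose
  maximal ideal consists of the quotients with `a ≡ 0` modulo `ϖ` (`InM`); the coefficientwise
  action of `σ₁` is trivial modulo the maximal ideal and preserves the valuation (`σ₁ c / c` is a
  unit of `A₀` for every `c ≠ 0` of `K₁`: here the rational prime `q`, a nonzero nonunit fixed by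
  `σ₁`, is used).  Then helper71's `secondDiff_sub_one_mem_nonunits` gives `u - 1 ∈ 𝔪`.
* Model part: Gauss normal forms in `ModelField K₁ N` come from helper66's `exists_gnf`; the
  same applied to `W f` (the Atkin-Lehner automorphism commutes with `σ`) gives `W (u - 1) ∈ 𝔪`,
  and the two-sided `q`-expansion principle turns `V_∞ ∩ V_0` into `C(x)`.
-/
import Mathlib
import Fermat.Agent.H82.SS.Contract
import Fermat.Agent.H66.ESD.GaussNorm
import Fermat.Agent.H71.SS.SecondDiff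
import Fermat.Agent.H48.KL.QExpLift

set_option autoImplicit false
set_option linter.style.haveILetI false
set_option linter.unusedSectionVars false

noncomputable section

namespace Fermat.Agent.H7.SS

open ModularCurve
open Fermat.Agent.H22.KL
open Fermat.Agent.H48.QExp

section Generic

variable (K₁ : Type) [Field K₁] (A₀ : Type) [CommRing A₀] [IsDomain A₀]
  [IsDiscreteValuationRing A₀] [Algebra A₀ K₁] [IsFractionRing A₀ K₁]

/-- Coefficientwise inclusion `A₀((t)) → K₁((t))`. -/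
abbrev gIota : LaurentSeries A₀ →+* LaurentSeries K₁ := coeffMap (algebraMap A₀ K₁)

/-- Coefficientwise reduction `A₀((t)) → k₀((t))`. -/
abbrev gRho : LaurentSeries A₀ →+* LaurentSeries (IsLocalRing.ResidueField A₀) :=
  coeffMap (IsLocalRing.residue A₀)

theorem gIota_injective : Function.Injective (gIota K₁ A₀) :=
  coeffMap_inj _ (IsFractionRing.injective A₀ K₁)

variable {K₁ A₀}

/-- `z` lies in the Gauss valuation ring of `E` : `z = a / b` with `a, b ∈ E ∩ A₀((t))`,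
`b` primitive. -/
def InV (E : IntermediateField K₁ (LaurentSeries K₁)) (z : LaurentSeries K₁) : Prop :=
  ∃ a b : LaurentSeries A₀, gIota K₁ A₀ a ∈ E ∧ gIota K₁ A₀ b ∈ E ∧ gRho A₀ b ≠ 0 ∧
    z * gIota K₁ A₀ b = gIota K₁ A₀ a

/-- `z` lies in the maximal ideal of the Gauss valuation ring of `E`. -/
def InM (E : IntermediateField K₁ (LaurentSeries K₁)) (z : LaurentSeries K₁) : Prop :=
  ∃ a b : LaurentSeries A₀, gIota K₁ A₀ a ∈ E ∧ gIota K₁ A₀ b ∈ E ∧ gRho A₀ a = 0 ∧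
    gRho A₀ b ≠ 0 ∧ z * gIota K₁ A₀ b = gIota K₁ A₀ a

variable (E : IntermediateField K₁ (LaurentSeries K₁))

theorem InM.inV {z : LaurentSeries K₁} (h : InM (A₀ := A₀) E z) : InV (A₀ := A₀) E z := by
  obtain ⟨a, b, ha, hb, -, hrb, h⟩ := h
  exact ⟨a, b, ha, hb, hrb, h⟩

theorem inV_zero : InV (A₀ := A₀) E 0 :=
  ⟨0, 1, by rw [map_zero]; exact E.zero_mem, by rw [map_one]; exact E.one_mem,
    by rw [map_one]; exact one_ne_zero, by rw [map_zero, zero_mul]⟩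

theorem inM_zero : InM (A₀ := A₀) E 0 :=
  ⟨0, 1, by rw [map_zero]; exact E.zero_mem, by rw [map_one]; exact E.one_mem, map_zero _,
    by rw [map_one]; exact one_ne_zero, by rw [map_zero, zero_mul]⟩

theorem inV_one : InV (A₀ := A₀) E 1 :=
  ⟨1, 1, by rw [map_one]; exact E.one_mem, by rw [map_one]; exact E.one_mem,
    by rw [map_one]; exact one_ne_zero, by rw [map_one, mul_one]⟩

theorem InV.mul {x y : LaurentSeries K₁} (hx : InV (A₀ := A₀) E x) (hy : InV (A₀ := A₀) E y) :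
    InV (A₀ := A₀) E (x * y) := by
  obtain ⟨a, b, ha, hb, hrb, hx⟩ := hx
  obtain ⟨c, d, hc, hd, hrd, hy⟩ := hy
  refine ⟨a * c, b * d, ?_, ?_, ?_, ?_⟩
  · rw [map_mul]; exact E.mul_mem ha hc
  · rw [map_mul]; exact E.mul_mem hb hd
  · rw [map_mul]; exact mul_ne_zero hrb hrd
  · rw [map_mul, map_mul, ← hx, ← hy]; ring

theorem InV.add {x y : LaurentSeries K₁} (hx : InV (A₀ := A₀) E x) (hy : InV (A₀ := A₀) E y) :
    InV (A₀ := A₀) E (x + y) := by
  obtain ⟨a, b, ha, hb, hrb, hx⟩ := hx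
  obtain ⟨c, d, hc, hd, hrd, hy⟩ := hy
  refine ⟨a * d + c * b, b * d, ?_, ?_, ?_, ?_⟩
  · rw [map_add, map_mul, map_mul]; exact E.add_mem (E.mul_mem ha hd) (E.mul_mem hc hb)
  · rw [map_mul]; exact E.mul_mem hb hd
  · rw [map_mul]; exact mul_ne_zero hrb hrd
  · rw [map_mul, map_add, map_mul, map_mul, ← hx, ← hy]; ring

theorem InV.neg {x : LaurentSeries K₁} (hx : InV (A₀ := A₀) E x) : InV (A₀ := A₀) E (-x) := by
  obtain ⟨a, b, ha, hb, hrb, hx⟩ := hx
  exact ⟨-a, b, by rw [map_neg]; exact E.neg_mem ha, hb, hrb, by rw [map_neg, ← hx, neg_mul]⟩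

/-- A nonzero element of `InM` has no inverse in `InV`. -/
theorem InM.not_inV_inv {z : LaurentSeries K₁} (hz0 : z ≠ 0) (hz : InM (A₀ := A₀) E z) :
    ¬ InV (A₀ := A₀) E z⁻¹ := by
  rintro ⟨c, d, -, -, hrd, hy⟩
  obtain ⟨a, b, -, -, hra, hrb, hx⟩ := hz
  have h1 : gIota K₁ A₀ (a * c) = gIota K₁ A₀ (b * d) := by
    rw [map_mul, map_mul, ← hx, ← hy]
    field_simp
  have h2 := gIota_injective K₁ A₀ h1
  have h3 := congrArg (gRho A₀) h2
  rw [map_mul, map_mul, hra, zero_mul] at h3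
  exact mul_ne_zero hrb hrd h3.symm

/-- Scalars: `c • a` for `c ∈ A₀`. -/
theorem gIota_algebraMap_mul (c : A₀) (a : LaurentSeries A₀) :
    gIota K₁ A₀ (algebraMap A₀ (LaurentSeries A₀) c * a) =
      algebraMap K₁ (LaurentSeries K₁) (algebraMap A₀ K₁ c) * gIota K₁ A₀ a := by
  rw [map_mul, coeffMap_algebraMap_gen]

theorem gRho_algebraMap_mul (c : A₀) (a : LaurentSeries A₀) :
    gRho A₀ (algebraMap A₀ (LaurentSeries A₀) c * a) =
      algebraMap (IsLocalRing.ResidueField A₀) (LaurentSeries (IsLocalRing.ResidueField A₀))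
        (IsLocalRing.residue A₀ c) * gRho A₀ a := by
  rw [map_mul, coeffMap_algebraMap_gen]

/-- The Gauss normal form hypothesis on `E`. -/
def HasGNF (A₀ : Type) [CommRing A₀] [IsDomain A₀] [IsDiscreteValuationRing A₀] [Algebra A₀ K₁]
    [IsFractionRing A₀ K₁] (E : IntermediateField K₁ (LaurentSeries K₁)) : Prop :=
  ∀ z : LaurentSeries K₁, z ∈ E → z ≠ 0 → ∃ (c : K₁) (a b : LaurentSeries A₀), c ≠ 0 ∧
    gIota K₁ A₀ a ∈ E ∧ gIota K₁ A₀ b ∈ E ∧ gRho A₀ a ≠ 0 ∧ gRho A₀ b ≠ 0 ∧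
    z * gIota K₁ A₀ b = algebraMap K₁ (LaurentSeries K₁) c * gIota K₁ A₀ a

theorem gIota_ne_zero_of_gRho {a : LaurentSeries A₀} (ha : gRho A₀ a ≠ 0) :
    gIota K₁ A₀ a ≠ 0 := by
  intro h
  have : a = 0 := gIota_injective K₁ A₀ (by rw [h, map_zero])
  rw [this, map_zero] at ha
  exact ha rfl

/-- Dichotomy: a nonzero element of `E` lies in the maximal ideal or its inverse lies in the
valuation ring. -/
theorem inM_or_inV_inv (hG : HasGNF A₀ E) {z : LaurentSeries K₁} (hz : z ∈ E) (hz0 : z ≠ 0) :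
    InM (A₀ := A₀) E z ∨ InV (A₀ := A₀) E z⁻¹ := by
  obtain ⟨c, a, b, hc, ha, hb, hra, hrb, h⟩ := hG z hz hz0
  have ha0 := gIota_ne_zero_of_gRho (K₁ := K₁) hra
  have hb0 := gIota_ne_zero_of_gRho (K₁ := K₁) hrb
  have hcL : algebraMap K₁ (LaurentSeries K₁) c ≠ 0 := by
    rw [Ne, map_eq_zero]; exact hc
  -- `z⁻¹ * ι a = c⁻¹ * ι b`
  have hinv : z⁻¹ * gIota K₁ A₀ a = algebraMap K₁ (LaurentSeries K₁) c⁻¹ * gIota K₁ A₀ b := by
    rw [map_inv₀]
    field_simp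
    rw [mul_comm, h]
  have key : ∀ c' : A₀, algebraMap A₀ K₁ c' = c⁻¹ → InV (A₀ := A₀) E z⁻¹ := by
    intro c' hc'
    refine ⟨algebraMap A₀ (LaurentSeries A₀) c' * b, a, ?_, ha, hra, ?_⟩
    · rw [gIota_algebraMap_mul]
      exact E.mul_mem (E.algebraMap_mem _) hb
    · rw [gIota_algebraMap_mul, hc', hinv]
  rcases ValuationRing.isInteger_or_isInteger A₀ c with ⟨c₀, hc₀⟩ | ⟨c', hc'⟩
  · by_cases hu : IsUnit c₀
    · right
      obtain ⟨u, rfl⟩ := hu
      refine key ((u⁻¹ : A₀ˣ) : A₀) ?_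
      apply eq_inv_of_mul_eq_one_left
      rw [← hc₀, ← map_mul, Units.inv_mul, map_one]
    · left
      refine ⟨algebraMap A₀ (LaurentSeries A₀) c₀ * a, b, ?_, hb, ?_, hrb, ?_⟩
      · rw [gIota_algebraMap_mul]
        exact E.mul_mem (E.algebraMap_mem _) ha
      · rw [gRho_algebraMap_mul]
        have : IsLocalRing.residue A₀ c₀ = 0 := by
          rw [IsLocalRing.residue_eq_zero_iff]
          exact (IsLocalRing.mem_maximalIdeal c₀).2 hu
        rw [this, map_zero, zero_mul]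
      · rw [gIota_algebraMap_mul, hc₀, h]
  · right
    exact key c' hc'


/-- The Gauss valuation ring of `E`. -/
def gaussVal (hG : HasGNF A₀ E) : ValuationSubring E where
  carrier := {z | InV (A₀ := A₀) E (z : LaurentSeries K₁)}
  mul_mem' := fun hx hy => InV.mul E hx hy
  one_mem' := inV_one E
  add_mem' := fun hx hy => InV.add E hx hy
  zero_mem' := inV_zero E
  neg_mem' := fun hx => InV.neg E hx
  mem_or_inv_mem' := fun z => by
    by_cases hz0 : z = 0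
    · left
      rw [hz0]
      exact inV_zero E
    · have hz0' : (z : LaurentSeries K₁) ≠ 0 := fun h => hz0 (Subtype.ext h)
      rcases inM_or_inV_inv E hG z.2 hz0' with h | h
      · left
        exact h.inV
      · right
        exact h

theorem mem_gaussVal_iff (hG : HasGNF A₀ E) (z : E) :
    z ∈ gaussVal E hG ↔ InV (A₀ := A₀) E (z : LaurentSeries K₁) := Iff.rfl

theorem mem_nonunits_gaussVal_iff (hG : HasGNF A₀ E) (z : E) :
    z ∈ (gaussVal E hG).nonunits ↔ InM (A₀ := A₀) E (z : LaurentSeries K₁) := by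
  rw [ValuationSubring.mem_nonunits_iff_or]
  constructor
  · rintro (rfl | h)
    · exact inM_zero E
    · by_cases hz0 : z = 0
      · rw [hz0]
        exact inM_zero E
      have hz0' : (z : LaurentSeries K₁) ≠ 0 := fun h => hz0 (Subtype.ext h)
      rcases inM_or_inV_inv E hG z.2 hz0' with h1 | h1
      · exact h1
      · exact absurd h1 h
  · intro hz
    by_cases hz0 : z = 0
    · left
      exact hz0
    · right
      have hz0' : (z : LaurentSeries K₁) ≠ 0 := fun h => hz0 (Subtype.ext h)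
      exact hz.not_inV_inv E hz0'

section Sigma

variable (σ₁ : K₁ →+* K₁)
  (hI : ∀ a : A₀, ∃ b : A₀, algebraMap A₀ K₁ b = σ₁ (algebraMap A₀ K₁ a) ∧ ¬ IsUnit (b - a))

include hI

/-- Lifting the coefficientwise action to `A₀((t))`, compatibly with reduction. -/
theorem exists_sigma_lift (a : LaurentSeries A₀) :
    ∃ a' : LaurentSeries A₀, gIota K₁ A₀ a' = coeffMap σ₁ (gIota K₁ A₀ a) ∧
      gRho A₀ a' = gRho A₀ a := by
  have hφ : Function.Injective (algebraMap A₀ K₁) := IsFractionRing.injective A₀ K₁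
  obtain ⟨a', ha'⟩ := exists_coeffMap_eq (algebraMap A₀ K₁) hφ (coeffMap σ₁ (gIota K₁ A₀ a))
    (fun n => by
      obtain ⟨b, hb, -⟩ := hI (a.coeff n)
      refine ⟨b, ?_⟩
      rw [hb, coeffMap_coeff, coeffMap_coeff])
  refine ⟨a', ha', ?_⟩
  ext n
  rw [coeffMap_coeff, coeffMap_coeff]
  obtain ⟨b, hb, hu⟩ := hI (a.coeff n)
  have h1 : a'.coeff n = b := by
    apply hφ
    rw [hb, ← coeffMap_coeff (algebraMap A₀ K₁) a', ha', coeffMap_coeff, coeffMap_coeff]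
  rw [h1, ← sub_eq_zero, ← map_sub, IsLocalRing.residue_eq_zero_iff]
  exact (IsLocalRing.mem_maximalIdeal _).2 hu

/-- `σ x - x` lies in the maximal ideal for `x` in the valuation ring. -/
theorem inM_sigma_sub (hE : ∀ y ∈ E, coeffMap σ₁ y ∈ E) {x : LaurentSeries K₁}
    (hx : InV (A₀ := A₀) E x) : InM (A₀ := A₀) E (coeffMap σ₁ x - x) := by
  obtain ⟨a, b, ha, hb, hrb, h⟩ := hx
  obtain ⟨a', ha', hra'⟩ := exists_sigma_lift σ₁ hI a
  obtain ⟨b', hb', hrb'⟩ := exists_sigma_lift σ₁ hI b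
  have hσ : coeffMap σ₁ x * gIota K₁ A₀ b' = gIota K₁ A₀ a' := by
    rw [hb', ha', ← map_mul, h]
  have haE : gIota K₁ A₀ a' ∈ E := by rw [ha']; exact hE _ ha
  have hbE : gIota K₁ A₀ b' ∈ E := by rw [hb']; exact hE _ hb
  refine ⟨a' * b - a * b', b' * b, ?_, ?_, ?_, ?_, ?_⟩
  · rw [map_sub, map_mul, map_mul]
    exact E.sub_mem (E.mul_mem haE hb) (E.mul_mem ha hbE)
  · rw [map_mul]
    exact E.mul_mem hbE hb
  · rw [map_sub, map_mul, map_mul, hra', hrb', sub_self]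
  · rw [map_mul, hrb']
    exact mul_ne_zero hrb hrb
  · rw [map_sub, map_mul, map_mul, map_mul, ← hσ, ← h]
    ring

/-- `σ₁` preserves units of `A₀`. -/
theorem exists_unit_sigma {u : A₀} (hu : IsUnit u) :
    ∃ u' : A₀, IsUnit u' ∧ σ₁ (algebraMap A₀ K₁ u) = algebraMap A₀ K₁ u' := by
  obtain ⟨b, hb, hbu⟩ := hI u
  refine ⟨b, ?_, hb.symm⟩
  by_contra hnb
  have h1 : b - u ∈ IsLocalRing.maximalIdeal A₀ := (IsLocalRing.mem_maximalIdeal _).2 hbu
  have h2 : b ∈ IsLocalRing.maximalIdeal A₀ := (IsLocalRing.mem_maximalIdeal _).2 hnb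
  have h3 : u ∈ IsLocalRing.maximalIdeal A₀ := by
    have := (IsLocalRing.maximalIdeal A₀).sub_mem h2 h1
    rwa [sub_sub_cancel] at this
  exact (IsLocalRing.mem_maximalIdeal _).1 h3 hu

/-- `σ₁ ϖ = u ϖ` with `u` a unit: uses a natural number `n` which is a nonzero nonunit. -/
theorem exists_unit_sigma_irreducible {ϖ : A₀} (hϖ : Irreducible ϖ) (n : ℕ)
    (hn0 : (n : K₁) ≠ 0) (hn : ¬ IsUnit ((n : ℕ) : A₀)) :
    ∃ u : A₀, IsUnit u ∧ σ₁ (algebraMap A₀ K₁ ϖ) = algebraMap A₀ K₁ (u * ϖ) := by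
  have hφ : Function.Injective (algebraMap A₀ K₁) := IsFractionRing.injective A₀ K₁
  obtain ⟨b₀, hb₀, hb₀u⟩ := hI ϖ
  have hb₀0 : b₀ ≠ 0 := by
    rintro rfl
    rw [map_zero] at hb₀
    have := (map_eq_zero σ₁).1 hb₀.symm
    rw [map_eq_zero_iff _ hφ] at this
    exact hϖ.ne_zero this
  have hb₀n : ¬ IsUnit b₀ := by
    intro hb
    have h1 : b₀ - ϖ ∈ IsLocalRing.maximalIdeal A₀ := (IsLocalRing.mem_maximalIdeal _).2 hb₀u
    have h2 : ϖ ∈ IsLocalRing.maximalIdeal A₀ := (IsLocalRing.mem_maximalIdeal _).2 hϖ.not_isUnit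
    have h3 := (IsLocalRing.maximalIdeal A₀).add_mem h1 h2
    rw [sub_add_cancel] at h3
    exact (IsLocalRing.mem_maximalIdeal _).1 h3 hb
  obtain ⟨k, u, hku⟩ := IsDiscreteValuationRing.eq_unit_mul_pow_irreducible hb₀0 hϖ
  have hnA0 : ((n : ℕ) : A₀) ≠ 0 := by
    intro h
    apply hn0
    have := congrArg (algebraMap A₀ K₁) h
    rwa [map_natCast, map_zero] at this
  obtain ⟨e, w, hew⟩ := IsDiscreteValuationRing.eq_unit_mul_pow_irreducible hnA0 hϖ
  have he : e ≠ 0 := by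
    rintro rfl
    rw [pow_zero, mul_one] at hew
    exact hn (hew ▸ w.isUnit)
  obtain ⟨w', hw', hww'⟩ := exists_unit_sigma σ₁ hI w.isUnit
  -- apply `σ₁` to `n = w ϖ ^ e`
  have h1 : algebraMap A₀ K₁ ((n : ℕ) : A₀) =
      algebraMap A₀ K₁ (w' * ((u : A₀) * ϖ ^ k) ^ e) := by
    have h2 : σ₁ (algebraMap A₀ K₁ ((n : ℕ) : A₀)) = algebraMap A₀ K₁ ((n : ℕ) : A₀) := by
      rw [map_natCast, map_natCast]
    rw [← h2]
    conv_lhs => rw [hew]
    rw [map_mul, map_mul, map_pow, map_pow, hww', ← hb₀, hku, map_mul, map_pow]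
    simp only [map_mul, map_pow]
  have h3 := hφ h1
  rw [hew] at h3
  obtain ⟨w'u, rfl⟩ := hw'
  have h4 : ((w : A₀)) * ϖ ^ e = ((w'u * u ^ e : A₀ˣ) : A₀) * ϖ ^ (k * e) := by
    rw [h3]
    push_cast
    ring
  have h5 := IsDiscreteValuationRing.unit_mul_pow_congr_pow hϖ hϖ _ _ _ _ h4
  have hk : k = 1 := by
    have : 1 * e = k * e := by rw [one_mul]; exact h5
    exact (Nat.eq_of_mul_eq_mul_right (Nat.pos_of_ne_zero he) this).symm
  refine ⟨u, u.isUnit, ?_⟩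
  rw [← hb₀, hku, hk, pow_one]


/-- `σ₁ a = u a` with `u` a unit, for nonzero `a ∈ A₀`. -/
theorem exists_unit_sigma_int {ϖ : A₀} (hϖ : Irreducible ϖ) (n : ℕ)
    (hn0 : (n : K₁) ≠ 0) (hn : ¬ IsUnit ((n : ℕ) : A₀)) {a : A₀} (ha : a ≠ 0) :
    ∃ u : A₀, IsUnit u ∧
      σ₁ (algebraMap A₀ K₁ a) = algebraMap A₀ K₁ u * algebraMap A₀ K₁ a := by
  obtain ⟨m, v, hmv⟩ := IsDiscreteValuationRing.eq_unit_mul_pow_irreducible ha hϖ
  obtain ⟨v', hv', hvv'⟩ := exists_unit_sigma σ₁ hI v.isUnit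
  obtain ⟨u, hu, huϖ⟩ := exists_unit_sigma_irreducible σ₁ hI hϖ n hn0 hn
  refine ⟨v' * u ^ m * ((v⁻¹ : A₀ˣ) : A₀), (hv'.mul (hu.pow m)).mul (v⁻¹).isUnit, ?_⟩
  have h1 : σ₁ (algebraMap A₀ K₁ a) = algebraMap A₀ K₁ (v' * (u * ϖ) ^ m) := by
    rw [hmv, map_mul, map_mul, map_pow, map_pow, hvv', huϖ]
    simp only [map_mul, map_pow]
  rw [h1, ← map_mul]
  congr 1
  have h2 : ((v⁻¹ : A₀ˣ) : A₀) * (v : A₀) = 1 := Units.inv_mul v
  calc v' * (u * ϖ) ^ m = v' * u ^ m * (((v⁻¹ : A₀ˣ) : A₀) * (v : A₀)) * ϖ ^ m := by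
        rw [h2]; ring
    _ = v' * u ^ m * ((v⁻¹ : A₀ˣ) : A₀) * a := by rw [hmv]; ring

/-- `σ₁ c = u c` with `u` a unit of `A₀`, for nonzero `c ∈ K₁`. -/
theorem exists_unit_sigma_field {ϖ : A₀} (hϖ : Irreducible ϖ) (n : ℕ)
    (hn0 : (n : K₁) ≠ 0) (hn : ¬ IsUnit ((n : ℕ) : A₀)) {c : K₁} (hc : c ≠ 0) :
    ∃ u : A₀, IsUnit u ∧ σ₁ c = algebraMap A₀ K₁ u * c := by
  have hφ : Function.Injective (algebraMap A₀ K₁) := IsFractionRing.injective A₀ K₁
  obtain ⟨a₁, a₂, ha₂, rfl⟩ := IsFractionRing.div_surjective (A := A₀) c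
  have ha₂0 : a₂ ≠ 0 := nonZeroDivisors.ne_zero ha₂
  have ha₁0 : a₁ ≠ 0 := by
    rintro rfl
    rw [map_zero, zero_div] at hc
    exact hc rfl
  have h20 : algebraMap A₀ K₁ a₂ ≠ 0 := fun h => ha₂0 ((map_eq_zero_iff _ hφ).1 h)
  obtain ⟨u₁, hu₁, h1⟩ := exists_unit_sigma_int σ₁ hI hϖ n hn0 hn ha₁0
  obtain ⟨u₂, hu₂, h2⟩ := exists_unit_sigma_int σ₁ hI hϖ n hn0 hn ha₂0
  obtain ⟨w₂, rfl⟩ := hu₂
  refine ⟨u₁ * ((w₂⁻¹ : A₀ˣ) : A₀), hu₁.mul (w₂⁻¹).isUnit, ?_⟩
  have hw : algebraMap A₀ K₁ ((w₂⁻¹ : A₀ˣ) : A₀) * algebraMap A₀ K₁ (w₂ : A₀) = 1 := by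
    rw [← map_mul, Units.inv_mul, map_one]
  have hw0 : algebraMap A₀ K₁ (w₂ : A₀) ≠ 0 := by
    intro h
    rw [h, mul_zero] at hw
    exact zero_ne_one hw
  rw [map_div₀, h1, h2, map_mul]
  field_simp
  linear_combination (-(algebraMap A₀ K₁ u₁ * algebraMap A₀ K₁ a₁)) * hw

/-- For `f ∈ E` nonzero, `σ f / f` is a unit of the Gauss valuation ring. -/
theorem inV_sigma_div (hG : HasGNF A₀ E) (hE : ∀ y ∈ E, coeffMap σ₁ y ∈ E)
    {ϖ : A₀} (hϖ : Irreducible ϖ) (n : ℕ)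
    (hn0 : (n : K₁) ≠ 0) (hn : ¬ IsUnit ((n : ℕ) : A₀)) {f : LaurentSeries K₁}
    (hf : f ∈ E) (hf0 : f ≠ 0) :
    InV (A₀ := A₀) E (coeffMap σ₁ f / f) ∧ InV (A₀ := A₀) E (f / coeffMap σ₁ f) := by
  obtain ⟨c, a, b, hc, ha, hb, hra, hrb, h⟩ := hG f hf hf0
  obtain ⟨a', ha', hra'⟩ := exists_sigma_lift σ₁ hI a
  obtain ⟨b', hb', hrb'⟩ := exists_sigma_lift σ₁ hI b
  obtain ⟨u, hu, huc⟩ := exists_unit_sigma_field σ₁ hI hϖ n hn0 hn hc
  have haE : gIota K₁ A₀ a' ∈ E := by rw [ha']; exact hE _ ha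
  have hbE : gIota K₁ A₀ b' ∈ E := by rw [hb']; exact hE _ hb
  have hσf0 : coeffMap σ₁ f ≠ 0 := by
    rw [Ne, map_eq_zero_iff _ (coeffMap_inj σ₁ σ₁.injective)]
    exact hf0
  have h' : coeffMap σ₁ f * gIota K₁ A₀ b' =
      algebraMap K₁ (LaurentSeries K₁) (algebraMap A₀ K₁ u) *
        algebraMap K₁ (LaurentSeries K₁) c * gIota K₁ A₀ a' := by
    rw [hb', ha', ← map_mul, h, map_mul, coeffMap_algebraMap_gen, huc, map_mul]
  have hru : gRho A₀ (algebraMap A₀ (LaurentSeries A₀) u * a' * b) ≠ 0 := by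
    rw [mul_assoc, gRho_algebraMap_mul, map_mul, hra']
    refine mul_ne_zero ?_ (mul_ne_zero hra hrb)
    rw [Ne, map_eq_zero, IsLocalRing.residue_eq_zero_iff]
    exact fun hm => (IsLocalRing.mem_maximalIdeal _).1 hm hu
  have hrab : gRho A₀ (a * b') ≠ 0 := by
    rw [map_mul, hrb']
    exact mul_ne_zero hra hrb
  have hmE : gIota K₁ A₀ (algebraMap A₀ (LaurentSeries A₀) u * a' * b) ∈ E := by
    rw [mul_assoc, gIota_algebraMap_mul, map_mul]
    exact E.mul_mem (E.algebraMap_mem _) (E.mul_mem haE hb)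
  have hmE' : gIota K₁ A₀ (a * b') ∈ E := by
    rw [map_mul]
    exact E.mul_mem ha hbE
  constructor
  · refine ⟨algebraMap A₀ (LaurentSeries A₀) u * a' * b, a * b', hmE, hmE', hrab, ?_⟩
    rw [mul_assoc, gIota_algebraMap_mul, map_mul, map_mul, div_mul_eq_mul_div, div_eq_iff hf0]
    linear_combination (gIota K₁ A₀ a) * h' -
      algebraMap K₁ (LaurentSeries K₁) (algebraMap A₀ K₁ u) * gIota K₁ A₀ a' * h
  · refine ⟨a * b', algebraMap A₀ (LaurentSeries A₀) u * a' * b, hmE', hmE, hru, ?_⟩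
    rw [mul_assoc, gIota_algebraMap_mul, map_mul, map_mul, div_mul_eq_mul_div, div_eq_iff hσf0]
    linear_combination
      algebraMap K₁ (LaurentSeries K₁) (algebraMap A₀ K₁ u) * gIota K₁ A₀ a' * h -
      (gIota K₁ A₀ a) * h'

/-- **Generic GAUSS-SD**: the second difference of a nonzero `f ∈ E` under a coefficientwise
"inertia" automorphism is `≡ 1` modulo the maximal ideal of the Gauss valuation ring. -/
theorem inM_secondDiff (hG : HasGNF A₀ E) {ϖ : A₀} (hϖ : Irreducible ϖ) (n : ℕ)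
    (hn0 : (n : K₁) ≠ 0) (hn : ¬ IsUnit ((n : ℕ) : A₀))
    (σ : E ≃+* E) (hσ : ∀ z : E, ((σ z : E) : LaurentSeries K₁) = coeffMap σ₁ z)
    (f : E) (hf : f ≠ 0) :
    InM (A₀ := A₀) E (((σ (σ f) * f / (σ f) ^ 2 - 1 : E) : E) : LaurentSeries K₁) := by
  have hE : ∀ y ∈ E, coeffMap σ₁ y ∈ E := by
    intro y hy
    rw [← hσ ⟨y, hy⟩]
    exact (σ ⟨y, hy⟩).2
  rw [← mem_nonunits_gaussVal_iff E hG, sq]
  refine Fermat.Agent.H71.SS.secondDiff_sub_one_mem_nonunits (gaussVal E hG) σ σ ?_ hf ?_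
  · intro x hx
    rw [mem_nonunits_gaussVal_iff]
    have := inM_sigma_sub E σ₁ hI hE ((mem_gaussVal_iff E hG x).1 hx)
    rw [← hσ x] at this
    exact this
  · have hf0' : (f : LaurentSeries K₁) ≠ 0 := fun h => hf (Subtype.ext h)
    obtain ⟨h1, h2⟩ := inV_sigma_div E σ₁ hI hG hE hϖ n hn0 hn f.2 hf0'
    rw [← hσ f] at h1 h2
    have hw1 : σ f / f ∈ gaussVal E hG := h1
    have hw2 : f / σ f ∈ gaussVal E hG := h2
    have hσf : σ f ≠ 0 := by simpa using hf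
    rw [← ValuationSubring.valuation_le_one_iff, map_div₀] at hw1 hw2
    have hvf : (gaussVal E hG).valuation f ≠ 0 := (Valuation.ne_zero_iff _).2 hf
    have hvσ : (gaussVal E hG).valuation (σ f) ≠ 0 := (Valuation.ne_zero_iff _).2 hσf
    apply le_antisymm
    · exact (div_le_one₀ (zero_lt_iff.2 hvf)).1 hw1
    · exact (div_le_one₀ (zero_lt_iff.2 hvσ)).1 hw2

end Sigma


/-! ### Back to coefficient language -/

/-- An element of the Gauss valuation ring is a quotient of elements of `E` with integral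
`q`-expansion, with primitive denominator. -/
theorem InV.exists_quot {z : E} (h : InV (A₀ := A₀) E (z : LaurentSeries K₁)) :
    ∃ a b : E, (∀ n : ℤ, (a : LaurentSeries K₁).coeff n ∈ (algebraMap A₀ K₁).range) ∧
      (∀ n : ℤ, (b : LaurentSeries K₁).coeff n ∈ (algebraMap A₀ K₁).range) ∧
      (∃ (n : ℤ) (c : A₀), IsUnit c ∧ algebraMap A₀ K₁ c = (b : LaurentSeries K₁).coeff n) ∧
      z * b = a := by
  obtain ⟨a, b, ha, hb, hrb, h⟩ := h
  refine ⟨⟨_, ha⟩, ⟨_, hb⟩, fun n => ⟨a.coeff n, (coeffMap_coeff _ _ _).symm⟩,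
    fun n => ⟨b.coeff n, (coeffMap_coeff _ _ _).symm⟩, ?_, Subtype.ext h⟩
  by_contra hcon
  push Not at hcon
  apply hrb
  ext n
  rw [coeffMap_coeff, HahnSeries.coeff_zero, IsLocalRing.residue_eq_zero_iff,
    IsLocalRing.mem_maximalIdeal]
  intro hu
  exact hcon n (b.coeff n) hu (coeffMap_coeff _ _ _).symm

/-- Division by the uniformiser: `𝔪 = ϖ V`. -/
theorem InM.inV_div {y : LaurentSeries K₁} (h : InM (A₀ := A₀) E y) {ϖ : A₀}
    (hϖ : Irreducible ϖ) :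
    InV (A₀ := A₀) E (algebraMap K₁ (LaurentSeries K₁) (algebraMap A₀ K₁ ϖ)⁻¹ * y) := by
  have hφ : Function.Injective (algebraMap A₀ K₁) := IsFractionRing.injective A₀ K₁
  obtain ⟨a, b, ha, hb, hra, hrb, h⟩ := h
  have hϖ0 : algebraMap A₀ K₁ ϖ ≠ 0 := fun h0 => hϖ.ne_zero ((map_eq_zero_iff _ hφ).1 h0)
  obtain ⟨a₁, ha₁⟩ := exists_coeffMap_eq (algebraMap A₀ K₁) hφ
    (algebraMap K₁ (LaurentSeries K₁) (algebraMap A₀ K₁ ϖ)⁻¹ * gIota K₁ A₀ a) (fun n => by
      have h1 : IsLocalRing.residue A₀ (a.coeff n) = 0 := by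
        rw [← coeffMap_coeff, show coeffMap (IsLocalRing.residue A₀) a = 0 from hra,
          HahnSeries.coeff_zero]
      rw [IsLocalRing.residue_eq_zero_iff, hϖ.maximalIdeal_eq, Ideal.mem_span_singleton] at h1
      obtain ⟨t, ht⟩ := h1
      refine ⟨t, ?_⟩
      rw [Fermat.Agent.H66.coeff_algebraMap_mul, coeffMap_coeff, ht, map_mul]
      field_simp)
  refine ⟨a₁, b, ?_, hb, hrb, ?_⟩
  · rw [show gIota K₁ A₀ a₁ = _ from ha₁]
    exact E.mul_mem (E.algebraMap_mem _) ha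
  · rw [show gIota K₁ A₀ a₁ = _ from ha₁, mul_assoc, h]

theorem InM.inV_of_sub_one {y : LaurentSeries K₁} (h : InM (A₀ := A₀) E (y - 1)) :
    InV (A₀ := A₀) E y := by
  have h1 := InV.add E (InM.inV E h) (inV_one E)
  rwa [sub_add_cancel] at h1

end Generic

/-! ### The model field -/

section Model

variable (K₁ : Type) [Field K₁] [Algebra ℚ K₁] (A₀ : Type) [CommRing A₀] [IsDomain A₀]
  [IsDiscreteValuationRing A₀] [Algebra A₀ K₁] [IsFractionRing A₀ K₁]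

/-- The valuation subring of `K₁` defined by the discrete valuation ring `A₀`. -/
def dvrSubring : ValuationSubring K₁ where
  toSubring := (algebraMap A₀ K₁).range
  mem_or_inv_mem' := fun c => by
    rcases ValuationRing.isInteger_or_isInteger A₀ c with ⟨c₀, hc₀⟩ | ⟨c', hc'⟩
    · left
      exact ⟨c₀, hc₀⟩
    · right
      exact ⟨c', hc'⟩

theorem mem_dvrSubring_iff (c : K₁) : c ∈ dvrSubring K₁ A₀ ↔ ∃ a : A₀, algebraMap A₀ K₁ a = c :=
  Iff.rfl

/-- Transfer of a series over `dvrSubring` to a series over `A₀`. -/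
theorem exists_lift_dvrSubring (a : LaurentSeries ↥(dvrSubring K₁ A₀))
    (hra : Fermat.Agent.H66.vRho (dvrSubring K₁ A₀) a ≠ 0) :
    ∃ a₀ : LaurentSeries A₀, gIota K₁ A₀ a₀ = Fermat.Agent.H66.vIota (dvrSubring K₁ A₀) a ∧
      gRho A₀ a₀ ≠ 0 := by
  have hφ : Function.Injective (algebraMap A₀ K₁) := IsFractionRing.injective A₀ K₁
  obtain ⟨a₀, ha₀⟩ := exists_coeffMap_eq (algebraMap A₀ K₁) hφ
    (Fermat.Agent.H66.vIota (dvrSubring K₁ A₀) a) (fun n => by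
      rw [Fermat.Agent.H66.vIota_coeff]
      exact (a.coeff n).2)
  refine ⟨a₀, ha₀, ?_⟩
  obtain ⟨m, hm⟩ := (Fermat.Agent.H66.vRho_ne_zero_iff _ a).1 hra
  apply coeffMap_ne_zero_of_coeff _ a₀ m
  rw [Ne, IsLocalRing.residue_eq_zero_iff]
  intro hmem
  apply (IsLocalRing.mem_maximalIdeal _).1 hmem
  obtain ⟨w, hw⟩ := hm.exists_right_inv
  obtain ⟨w₀, hw₀⟩ := w.2
  have h1 : algebraMap A₀ K₁ (a₀.coeff m) = ((a.coeff m : ↥(dvrSubring K₁ A₀)) : K₁) := by
    rw [← coeffMap_coeff (algebraMap A₀ K₁) a₀, show coeffMap (algebraMap A₀ K₁) a₀ = _ from ha₀,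
      Fermat.Agent.H66.vIota_coeff]
  refine IsUnit.of_mul_eq_one w₀ ?_
  apply hφ
  rw [map_mul, map_one, h1, hw₀]
  exact congrArg Subtype.val hw

/-- **Gauss normal form** in the model field, over an abstract discrete valuation ring. -/
theorem hasGNF_model (N : ℕ) :
    HasGNF A₀ (laurentBaseChange K₁ (modularFunctionFieldFull N)) := by
  intro z hz hz0
  obtain ⟨c, a, b, hc, ha, hb, hra, hrb, h⟩ :=
    Fermat.Agent.H66.exists_gnf N (dvrSubring K₁ A₀) hz hz0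
  obtain ⟨a₀, ha₀, hra₀⟩ := exists_lift_dvrSubring K₁ A₀ a hra
  obtain ⟨b₀, hb₀, hrb₀⟩ := exists_lift_dvrSubring K₁ A₀ b hrb
  exact ⟨c, a₀, b₀, hc, by rw [ha₀]; exact ha, by rw [hb₀]; exact hb, hra₀, hrb₀,
    by rw [ha₀, hb₀]; exact h⟩

end Model

/-! ### The main theorem -/

section Main

open Fermat.Agent.H82.SS

/-- `V_∞ ∩ V_0 ⊆ C(x)` in terms of `InV` (a restatement of `ModelQExp2Statement`). -/
theorem mem_gaussClosure_of_inV (M q : ℕ) [NeZero M] [NeZero q] (x₀ : LaurentSeries ℚ)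
    (hQ : ModelQExp2Statement M q x₀)
    (K₁ : Type) [Field K₁] [Algebra ℚ K₁] [FiniteDimensional ℚ K₁]
    (A₀ : Type) [CommRing A₀] [IsDomain A₀] [IsDiscreteValuationRing A₀]
    [Algebra A₀ K₁] [IsFractionRing A₀ K₁]
    [Algebra A₀ (ModelField K₁ (M * q))] [IsScalarTower A₀ K₁ (ModelField K₁ (M * q))]
    (hq : ¬ IsUnit ((q : ℕ) : A₀)) (ϖ : A₀) (hϖ : Irreducible ϖ)
    (x : ModelField K₁ (M * q)) (hx : (x : LaurentSeries K₁) = coeffEmb K₁ x₀)
    (W : ModelField K₁ (M * q) ≃ₐ[K₁] ModelField K₁ (M * q)) (hW : IsAtkinLehnerModel K₁ M q W)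
    (z : ModelField K₁ (M * q))
    (h1 : InV (A₀ := A₀) (laurentBaseChange K₁ (modularFunctionFieldFull (M * q)))
      (z : LaurentSeries K₁))
    (h2 : InV (A₀ := A₀) (laurentBaseChange K₁ (modularFunctionFieldFull (M * q)))
      (W z : LaurentSeries K₁)) :
    z ∈ gaussClosure A₀ (ModelField K₁ (M * q)) ϖ x := by
  have hφ : Function.Injective (algebraMap A₀ K₁) := IsFractionRing.injective A₀ K₁
  obtain ⟨a, b, ha, hb, hbu, hab⟩ := InV.exists_quot _ h1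
  obtain ⟨a₂, b₂, ha₂, hb₂, hbu₂, hab₂⟩ := InV.exists_quot _ h2
  have hb0 : b ≠ 0 := by
    rintro rfl
    obtain ⟨n, c, hc, hcn⟩ := hbu
    have h0 : algebraMap A₀ K₁ c = 0 := by
      rw [hcn]
      rfl
    exact hc.ne_zero ((map_eq_zero_iff _ hφ).1 h0)
  have hz : z = a / b := by
    rw [eq_div_iff hb0]
    exact hab
  rw [hz]
  refine hQ K₁ A₀ hq ϖ hϖ x hx W hW a b (W.symm a₂) (W.symm b₂) ha hb hbu ?_ ?_ ?_ ?_
  · rw [W.apply_symm_apply]
    exact ha₂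
  · rw [W.apply_symm_apply]
    exact hb₂
  · rw [W.apply_symm_apply]
    exact hbu₂
  · have h3 : z * W.symm b₂ = W.symm a₂ := by
      rw [← hab₂, map_mul, W.symm_apply_apply]
    rw [← hab, ← h3]
    ring

/-- **SSH-5 (GAUSS-SD).**  The second difference `u = σ²(f) f / σ(f)²` of a nonzero element of
the model field of level `M q` lies in the Gauss closure `C(x)`, and `u - 1 ∈ ϖ C(x)`.
Inputs: the two-sided `q`-expansion principle (`ModelQExp2Statement`, row SSH-4), existence of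
the Atkin-Lehner automorphism over number fields and its commutation with the coefficientwise
Galois action. -/
theorem modelGaussSD (M q : ℕ) [NeZero M] [NeZero q] (hMq : Nat.Coprime M q)
    (x₀ : LaurentSeries ℚ) (hQ : ModelQExp2Statement M q x₀)
    (hWe : ModelAtkinLehnerExistsStatement) (hWc : ModelAtkinLehnerCommStatement) :
    ModelGaussSDStatement M q x₀ := by
  intro K₁ _ _ _ A₀ _ _ _ _ _ _ _ hq ϖ hϖ x hx σ₁ hI f hf
  obtain ⟨W, hW⟩ := hWe M q hMq K₁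
  have hcomm := hWc M q hMq K₁ W hW σ₁
  have hφ : Function.Injective (algebraMap A₀ K₁) := IsFractionRing.injective A₀ K₁
  have hϖ0 : algebraMap A₀ K₁ ϖ ≠ 0 := fun h0 => hϖ.ne_zero ((map_eq_zero_iff _ hφ).1 h0)
  have hG := hasGNF_model K₁ A₀ (M * q)
  have hq0 : ((q : ℕ) : K₁) ≠ 0 := by
    haveI : CharZero K₁ := algebraRat.charZero K₁
    exact Nat.cast_ne_zero.2 (NeZero.ne q)
  have hI' : ∀ a : A₀, ∃ b : A₀,
      algebraMap A₀ K₁ b = (σ₁ : K₁ →+* K₁) (algebraMap A₀ K₁ a) ∧ ¬ IsUnit (b - a) := hI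
  have hσ : ∀ z : ModelField K₁ (M * q),
      ((modelSigma K₁ (M * q) σ₁ z : ModelField K₁ (M * q)) : LaurentSeries K₁) =
        coeffMap (σ₁ : K₁ →+* K₁) (z : LaurentSeries K₁) := fun z => rfl
  have h1 := inM_secondDiff _ (σ₁ : K₁ →+* K₁) hI' hG hϖ q hq0 hq
    (modelSigma K₁ (M * q) σ₁) hσ f hf
  have hWf : W f ≠ 0 := (EmbeddingLike.map_ne_zero_iff).2 hf
  have h2 := inM_secondDiff _ (σ₁ : K₁ →+* K₁) hI' hG hϖ q hq0 hq
    (modelSigma K₁ (M * q) σ₁) hσ (W f) hWf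
  have hWu : W (secondDiff (modelSigma K₁ (M * q) σ₁) f - 1) =
      modelSigma K₁ (M * q) σ₁ (modelSigma K₁ (M * q) σ₁ (W f)) * W f /
        (modelSigma K₁ (M * q) σ₁ (W f)) ^ 2 - 1 := by
    rw [secondDiff, map_sub, map_one, map_div₀, map_mul, map_pow, hcomm, hcomm]
  rw [← hWu] at h2
  change InM (A₀ := A₀) (laurentBaseChange K₁ (modularFunctionFieldFull (M * q)))
    ((secondDiff (modelSigma K₁ (M * q) σ₁) f - 1 : ModelField K₁ (M * q)) :
      LaurentSeries K₁) at h1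
  generalize secondDiff (modelSigma K₁ (M * q) σ₁) f = u at h1 h2 ⊢
  constructor
  · refine mem_gaussClosure_of_inV M q x₀ hQ K₁ A₀ hq ϖ hϖ x hx W hW _ ?_ ?_
    · exact InM.inV_of_sub_one _ h1
    · rw [map_sub, map_one] at h2
      exact InM.inV_of_sub_one _ h2
  · refine ⟨algebraMap K₁ (ModelField K₁ (M * q)) (algebraMap A₀ K₁ ϖ)⁻¹ * (u - 1), ?_, ?_⟩
    · refine mem_gaussClosure_of_inV M q x₀ hQ K₁ A₀ hq ϖ hϖ x hx W hW _ ?_ ?_
      · exact InM.inV_div _ h1 hϖ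
      · rw [map_mul, W.commutes]
        exact InM.inV_div _ h2 hϖ
    · rw [IsScalarTower.algebraMap_apply A₀ K₁ (ModelField K₁ (M * q)), ← mul_assoc, ← map_mul,
        mul_inv_cancel₀ hϖ0, map_one, one_mul]

end Main

end Fermat.Agent.H7.SS
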