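/-
P-SS / S35 (helper71's MIXED second difference), Gauss condition.  helper7.

`modelGaussMixed : Nat.Coprime M q → ModelQExp2Statement M q x₀ → ModelAtkinLehnerExistsStatement →
    ModelAtkinLehnerCommStatement → ModelGaussMixedStatement M q x₀`

For `τ₁` an inertia element (`IsModelInertia`) and `ψ₁` ANY automorphism of `K₁` which maps `A₀`
into itself (`IsModelDecomp`, e.g. a power of a Frobenius lift), the mixed second difference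
`u = τ(ψ f) f / (τ(f) ψ(f))` of a nonzero `f` of the model field of level `M q` lies in the
Gauss closure `C(x)` and `u - 1 ∈ ϖ C(x)`.  For `ψ₁ = τ₁` this is `modelGaussSD`.
-/
import Fermat.Agent.H7.SS.GaussSD

set_option autoImplicit false
set_option linter.style.haveILetI false
set_option linter.unusedSectionVars false

noncomputable section

namespace Fermat.Agent.H7.SS

open ModularCurve
open Fermat.Agent.H22.KL
open Fermat.Agent.H48.QExp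
open Fermat.Agent.H82.SS

section GenericDecomp

variable {K₁ : Type} [Field K₁] {A₀ : Type} [CommRing A₀] [IsDomain A₀]
  [IsDiscreteValuationRing A₀] [Algebra A₀ K₁] [IsFractionRing A₀ K₁]
  (E : IntermediateField K₁ (LaurentSeries K₁))
  (ψ₁ : K₁ →+* K₁)
  (hD : ∀ a : A₀, ∃ b : A₀, algebraMap A₀ K₁ b = ψ₁ (algebraMap A₀ K₁ a))

include hD

/-- `ψ₁` preserves units of `A₀`. -/
theorem exists_unit_psi {u : A₀} (hu : IsUnit u) :
    ∃ u' : A₀, IsUnit u' ∧ ψ₁ (algebraMap A₀ K₁ u) = algebraMap A₀ K₁ u' := by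
  have hφ : Function.Injective (algebraMap A₀ K₁) := IsFractionRing.injective A₀ K₁
  obtain ⟨w, rfl⟩ := hu
  obtain ⟨b, hb⟩ := hD (w : A₀)
  obtain ⟨b', hb'⟩ := hD ((w⁻¹ : A₀ˣ) : A₀)
  refine ⟨b, IsUnit.of_mul_eq_one b' ?_, hb.symm⟩
  apply hφ
  rw [map_mul, hb, hb', ← map_mul, ← map_mul, Units.mul_inv, map_one, map_one]

/-- Lifting the coefficientwise action to `A₀((t))`, preserving primitivity. -/
theorem exists_psi_lift (a : LaurentSeries A₀) (hra : gRho A₀ a ≠ 0) :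
    ∃ a' : LaurentSeries A₀, gIota K₁ A₀ a' = coeffMap ψ₁ (gIota K₁ A₀ a) ∧
      gRho A₀ a' ≠ 0 := by
  have hφ : Function.Injective (algebraMap A₀ K₁) := IsFractionRing.injective A₀ K₁
  obtain ⟨a', ha'⟩ := exists_coeffMap_eq (algebraMap A₀ K₁) hφ (coeffMap ψ₁ (gIota K₁ A₀ a))
    (fun n => by
      obtain ⟨b, hb⟩ := hD (a.coeff n)
      refine ⟨b, ?_⟩
      rw [hb, coeffMap_coeff, coeffMap_coeff])
  refine ⟨a', ha', ?_⟩
  -- a unit coefficient of `a`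
  have hex : ∃ n, IsUnit (a.coeff n) := by
    by_contra hcon
    push Not at hcon
    apply hra
    ext n
    rw [coeffMap_coeff, HahnSeries.coeff_zero, IsLocalRing.residue_eq_zero_iff]
    exact (IsLocalRing.mem_maximalIdeal _).2 (hcon n)
  obtain ⟨n, hn⟩ := hex
  obtain ⟨u', hu', huu'⟩ := exists_unit_psi ψ₁ hD hn
  have h1 : a'.coeff n = u' := by
    apply hφ
    rw [← huu', ← coeffMap_coeff (algebraMap A₀ K₁) a', ha', coeffMap_coeff, coeffMap_coeff]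
  apply coeffMap_ne_zero_of_coeff _ a' n
  rw [h1, Ne, IsLocalRing.residue_eq_zero_iff]
  exact fun hm => (IsLocalRing.mem_maximalIdeal _).1 hm hu'

/-- `ψ₁ ϖ = u ϖ` with `u` a unit: uses a natural number `n` which is a nonzero nonunit. -/
theorem exists_unit_psi_irreducible {ϖ : A₀} (hϖ : Irreducible ϖ) (n : ℕ)
    (hn0 : (n : K₁) ≠ 0) (hn : ¬ IsUnit ((n : ℕ) : A₀)) :
    ∃ u : A₀, IsUnit u ∧ ψ₁ (algebraMap A₀ K₁ ϖ) = algebraMap A₀ K₁ (u * ϖ) := by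
  have hφ : Function.Injective (algebraMap A₀ K₁) := IsFractionRing.injective A₀ K₁
  obtain ⟨b₀, hb₀⟩ := hD ϖ
  have hb₀0 : b₀ ≠ 0 := by
    rintro rfl
    rw [map_zero] at hb₀
    have := (map_eq_zero ψ₁).1 hb₀.symm
    rw [map_eq_zero_iff _ hφ] at this
    exact hϖ.ne_zero this
  obtain ⟨k, u, hku⟩ := IsDiscreteValuationRing.eq_unit_mul_pow_irreducible hb₀0 hϖ
  have hnA0 : ((n : ℕ) : A₀) ≠ 0 := by
    intro h
    apply hn0
    have := congrArg (algebraMap A₀ K₁) h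
    rwa [map_natCast, map_zero] at this
  obtain ⟨e, w, hew⟩ := IsDiscreteValuationRing.eq_unit_mul_pow_irreducible hnA0 hϖ
  have he : e ≠ 0 := by
    rintro rfl
    rw [pow_zero, mul_one] at hew
    exact hn (hew ▸ w.isUnit)
  obtain ⟨w', hw', hww'⟩ := exists_unit_psi ψ₁ hD w.isUnit
  have h1 : algebraMap A₀ K₁ ((n : ℕ) : A₀) =
      algebraMap A₀ K₁ (w' * ((u : A₀) * ϖ ^ k) ^ e) := by
    have h2 : ψ₁ (algebraMap A₀ K₁ ((n : ℕ) : A₀)) = algebraMap A₀ K₁ ((n : ℕ) : A₀) := by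
      rw [map_natCast, map_natCast]
    rw [← h2]
    conv_lhs => rw [hew]
    rw [map_mul, map_mul, map_pow, map_pow, hww', ← hb₀, hku, map_mul, map_pow]
    simp only [map_mul, map_pow]
  have h3 := hφ h1
  rw [hew] at h3
  obtain ⟨w'u, rfl⟩ := hw'
  have h4 : ((w : A₀)) * ϖ ^ e = ((w'u * u ^ e : A₀ˣ) : A₀) * ϖ ^ (k * e) := by
    rw [h3]
    push_cast
    ring
  have h5 := IsDiscreteValuationRing.unit_mul_pow_congr_pow hϖ hϖ _ _ _ _ h4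
  have hk : k = 1 := by
    have : 1 * e = k * e := by rw [one_mul]; exact h5
    exact (Nat.eq_of_mul_eq_mul_right (Nat.pos_of_ne_zero he) this).symm
  refine ⟨u, u.isUnit, ?_⟩
  rw [← hb₀, hku, hk, pow_one]

/-- `ψ₁ a = u a` with `u` a unit, for nonzero `a ∈ A₀`. -/
theorem exists_unit_psi_int {ϖ : A₀} (hϖ : Irreducible ϖ) (n : ℕ)
    (hn0 : (n : K₁) ≠ 0) (hn : ¬ IsUnit ((n : ℕ) : A₀)) {a : A₀} (ha : a ≠ 0) :
    ∃ u : A₀, IsUnit u ∧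
      ψ₁ (algebraMap A₀ K₁ a) = algebraMap A₀ K₁ u * algebraMap A₀ K₁ a := by
  obtain ⟨m, v, hmv⟩ := IsDiscreteValuationRing.eq_unit_mul_pow_irreducible ha hϖ
  obtain ⟨v', hv', hvv'⟩ := exists_unit_psi ψ₁ hD v.isUnit
  obtain ⟨u, hu, huϖ⟩ := exists_unit_psi_irreducible ψ₁ hD hϖ n hn0 hn
  refine ⟨v' * u ^ m * ((v⁻¹ : A₀ˣ) : A₀), (hv'.mul (hu.pow m)).mul (v⁻¹).isUnit, ?_⟩
  have h1 : ψ₁ (algebraMap A₀ K₁ a) = algebraMap A₀ K₁ (v' * (u * ϖ) ^ m) := by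
    rw [hmv, map_mul, map_mul, map_pow, map_pow, hvv', huϖ]
    simp only [map_mul, map_pow]
  rw [h1, ← map_mul]
  congr 1
  have h2 : ((v⁻¹ : A₀ˣ) : A₀) * (v : A₀) = 1 := Units.inv_mul v
  calc v' * (u * ϖ) ^ m = v' * u ^ m * (((v⁻¹ : A₀ˣ) : A₀) * (v : A₀)) * ϖ ^ m := by
        rw [h2]; ring
    _ = v' * u ^ m * ((v⁻¹ : A₀ˣ) : A₀) * a := by rw [hmv]; ring

/-- `ψ₁ c = u c` with `u` a unit of `A₀`, for nonzero `c ∈ K₁`. -/
theorem exists_unit_psi_field {ϖ : A₀} (hϖ : Irreducible ϖ) (n : ℕ)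
    (hn0 : (n : K₁) ≠ 0) (hn : ¬ IsUnit ((n : ℕ) : A₀)) {c : K₁} (hc : c ≠ 0) :
    ∃ u : A₀, IsUnit u ∧ ψ₁ c = algebraMap A₀ K₁ u * c := by
  have hφ : Function.Injective (algebraMap A₀ K₁) := IsFractionRing.injective A₀ K₁
  obtain ⟨a₁, a₂, ha₂, rfl⟩ := IsFractionRing.div_surjective (A := A₀) c
  have ha₂0 : a₂ ≠ 0 := nonZeroDivisors.ne_zero ha₂
  have ha₁0 : a₁ ≠ 0 := by
    rintro rfl
    rw [map_zero, zero_div] at hc
    exact hc rfl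
  have h20 : algebraMap A₀ K₁ a₂ ≠ 0 := fun h => ha₂0 ((map_eq_zero_iff _ hφ).1 h)
  obtain ⟨u₁, hu₁, h1⟩ := exists_unit_psi_int ψ₁ hD hϖ n hn0 hn ha₁0
  obtain ⟨u₂, hu₂, h2⟩ := exists_unit_psi_int ψ₁ hD hϖ n hn0 hn ha₂0
  obtain ⟨w₂, rfl⟩ := hu₂
  refine ⟨u₁ * ((w₂⁻¹ : A₀ˣ) : A₀), hu₁.mul (w₂⁻¹).isUnit, ?_⟩
  have hw : algebraMap A₀ K₁ ((w₂⁻¹ : A₀ˣ) : A₀) * algebraMap A₀ K₁ (w₂ : A₀) = 1 := by
    rw [← map_mul, Units.inv_mul, map_one]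
  have hw0 : algebraMap A₀ K₁ (w₂ : A₀) ≠ 0 := by
    intro h
    rw [h, mul_zero] at hw
    exact zero_ne_one hw
  rw [map_div₀, h1, h2, map_mul]
  field_simp
  linear_combination (-(algebraMap A₀ K₁ u₁ * algebraMap A₀ K₁ a₁)) * hw

/-- For `f ∈ E` nonzero, `ψ f / f` is a unit of the Gauss valuation ring. -/
theorem inV_psi_div (hG : HasGNF A₀ E) (hE : ∀ y ∈ E, coeffMap ψ₁ y ∈ E)
    {ϖ : A₀} (hϖ : Irreducible ϖ) (n : ℕ)
    (hn0 : (n : K₁) ≠ 0) (hn : ¬ IsUnit ((n : ℕ) : A₀)) {f : LaurentSeries K₁}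
    (hf : f ∈ E) (hf0 : f ≠ 0) :
    InV (A₀ := A₀) E (coeffMap ψ₁ f / f) ∧ InV (A₀ := A₀) E (f / coeffMap ψ₁ f) := by
  obtain ⟨c, a, b, hc, ha, hb, hra, hrb, h⟩ := hG f hf hf0
  obtain ⟨a', ha', hra'⟩ := exists_psi_lift ψ₁ hD a hra
  obtain ⟨b', hb', hrb'⟩ := exists_psi_lift ψ₁ hD b hrb
  obtain ⟨u, hu, huc⟩ := exists_unit_psi_field ψ₁ hD hϖ n hn0 hn hc
  have haE : gIota K₁ A₀ a' ∈ E := by rw [ha']; exact hE _ ha
  have hbE : gIota K₁ A₀ b' ∈ E := by rw [hb']; exact hE _ hb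
  have hσf0 : coeffMap ψ₁ f ≠ 0 := by
    rw [Ne, map_eq_zero_iff _ (coeffMap_inj ψ₁ ψ₁.injective)]
    exact hf0
  have h' : coeffMap ψ₁ f * gIota K₁ A₀ b' =
      algebraMap K₁ (LaurentSeries K₁) (algebraMap A₀ K₁ u) *
        algebraMap K₁ (LaurentSeries K₁) c * gIota K₁ A₀ a' := by
    rw [hb', ha', ← map_mul, h, map_mul, coeffMap_algebraMap_gen, huc, map_mul]
  have hru : gRho A₀ (algebraMap A₀ (LaurentSeries A₀) u * a' * b) ≠ 0 := by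
    rw [mul_assoc, gRho_algebraMap_mul, map_mul]
    refine mul_ne_zero ?_ (mul_ne_zero hra' hrb)
    rw [Ne, map_eq_zero, IsLocalRing.residue_eq_zero_iff]
    exact fun hm => (IsLocalRing.mem_maximalIdeal _).1 hm hu
  have hrab : gRho A₀ (a * b') ≠ 0 := by
    rw [map_mul]
    exact mul_ne_zero hra hrb'
  have hmE : gIota K₁ A₀ (algebraMap A₀ (LaurentSeries A₀) u * a' * b) ∈ E := by
    rw [mul_assoc, gIota_algebraMap_mul, map_mul]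
    exact E.mul_mem (E.algebraMap_mem _) (E.mul_mem haE hb)
  have hmE' : gIota K₁ A₀ (a * b') ∈ E := by
    rw [map_mul]
    exact E.mul_mem ha hbE
  constructor
  · refine ⟨algebraMap A₀ (LaurentSeries A₀) u * a' * b, a * b', hmE, hmE', hrab, ?_⟩
    rw [mul_assoc, gIota_algebraMap_mul, map_mul, map_mul, div_mul_eq_mul_div, div_eq_iff hf0]
    linear_combination (gIota K₁ A₀ a) * h' -
      algebraMap K₁ (LaurentSeries K₁) (algebraMap A₀ K₁ u) * gIota K₁ A₀ a' * h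
  · refine ⟨a * b', algebraMap A₀ (LaurentSeries A₀) u * a' * b, hmE', hmE, hru, ?_⟩
    rw [mul_assoc, gIota_algebraMap_mul, map_mul, map_mul, div_mul_eq_mul_div, div_eq_iff hσf0]
    linear_combination
      algebraMap K₁ (LaurentSeries K₁) (algebraMap A₀ K₁ u) * gIota K₁ A₀ a' * h -
      (gIota K₁ A₀ a) * h'

/-- `ψ` preserves the Gauss valuation. -/
theorem valuation_psi_eq (hG : HasGNF A₀ E) {ϖ : A₀} (hϖ : Irreducible ϖ) (n : ℕ)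
    (hn0 : (n : K₁) ≠ 0) (hn : ¬ IsUnit ((n : ℕ) : A₀))
    (ψ : E ≃+* E) (hψ : ∀ z : E, ((ψ z : E) : LaurentSeries K₁) = coeffMap ψ₁ z)
    (f : E) (hf : f ≠ 0) :
    (gaussVal E hG).valuation (ψ f) = (gaussVal E hG).valuation f := by
  have hE : ∀ y ∈ E, coeffMap ψ₁ y ∈ E := by
    intro y hy
    rw [← hψ ⟨y, hy⟩]
    exact (ψ ⟨y, hy⟩).2
  have hf0' : (f : LaurentSeries K₁) ≠ 0 := fun h => hf (Subtype.ext h)
  obtain ⟨h1, h2⟩ := inV_psi_div E ψ₁ hD hG hE hϖ n hn0 hn f.2 hf0'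
  rw [← hψ f] at h1 h2
  have hw1 : ψ f / f ∈ gaussVal E hG := h1
  have hw2 : f / ψ f ∈ gaussVal E hG := h2
  have hσf : ψ f ≠ 0 := by simpa using hf
  rw [← ValuationSubring.valuation_le_one_iff, map_div₀] at hw1 hw2
  have hvf : (gaussVal E hG).valuation f ≠ 0 := (Valuation.ne_zero_iff _).2 hf
  have hvσ : (gaussVal E hG).valuation (ψ f) ≠ 0 := (Valuation.ne_zero_iff _).2 hσf
  apply le_antisymm
  · exact (div_le_one₀ (zero_lt_iff.2 hvf)).1 hw1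
  · exact (div_le_one₀ (zero_lt_iff.2 hvσ)).1 hw2

/-- **Generic mixed GAUSS-SD**: `τ(ψ f) f / (τ(f) ψ(f)) ≡ 1` modulo the maximal ideal of the
Gauss valuation ring, for `τ` an inertia element and `ψ` a decomposition element. -/
theorem inM_mixedDiff (hG : HasGNF A₀ E) {ϖ : A₀} (hϖ : Irreducible ϖ) (n : ℕ)
    (hn0 : (n : K₁) ≠ 0) (hn : ¬ IsUnit ((n : ℕ) : A₀))
    (τ₁ : K₁ →+* K₁)
    (hI : ∀ a : A₀, ∃ b : A₀, algebraMap A₀ K₁ b = τ₁ (algebraMap A₀ K₁ a) ∧ ¬ IsUnit (b - a))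
    (τ : E ≃+* E) (hτ : ∀ z : E, ((τ z : E) : LaurentSeries K₁) = coeffMap τ₁ z)
    (ψ : E ≃+* E) (hψ : ∀ z : E, ((ψ z : E) : LaurentSeries K₁) = coeffMap ψ₁ z)
    (f : E) (hf : f ≠ 0) :
    InM (A₀ := A₀) E (((τ (ψ f) * f / (τ f * ψ f) - 1 : E) : E) : LaurentSeries K₁) := by
  have hE : ∀ y ∈ E, coeffMap τ₁ y ∈ E := by
    intro y hy
    rw [← hτ ⟨y, hy⟩]
    exact (τ ⟨y, hy⟩).2
  rw [← mem_nonunits_gaussVal_iff E hG]
  refine Fermat.Agent.H71.SS.secondDiff_sub_one_mem_nonunits (gaussVal E hG) τ ψ ?_ hf ?_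
  · intro x hx
    rw [mem_nonunits_gaussVal_iff]
    have := inM_sigma_sub E τ₁ hI hE ((mem_gaussVal_iff E hG x).1 hx)
    rw [← hτ x] at this
    exact this
  · exact valuation_psi_eq E ψ₁ hD hG hϖ n hn0 hn ψ hψ f hf

end GenericDecomp

/-! ### The model statement -/

/-- `ψ₁` maps `A₀` into itself (an element of the decomposition group of `A₀`). -/
def IsModelDecomp (K₁ : Type) [Field K₁] [Algebra ℚ K₁] (A₀ : Type) [CommRing A₀]
    [Algebra A₀ K₁] (ψ₁ : K₁ ≃ₐ[ℚ] K₁) : Prop :=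
  ∀ a : A₀, ∃ b : A₀, algebraMap A₀ K₁ b = ψ₁ (algebraMap A₀ K₁ a)

theorem IsModelDecomp.of_inertia {K₁ : Type} [Field K₁] [Algebra ℚ K₁] {A₀ : Type} [CommRing A₀]
    [Algebra A₀ K₁] {σ₁ : K₁ ≃ₐ[ℚ] K₁} (h : IsModelInertia K₁ A₀ σ₁) :
    IsModelDecomp K₁ A₀ σ₁ := fun a => by
  obtain ⟨b, hb, -⟩ := h a
  exact ⟨b, hb⟩

theorem IsModelDecomp.trans {K₁ : Type} [Field K₁] [Algebra ℚ K₁] {A₀ : Type} [CommRing A₀]
    [Algebra A₀ K₁] {φ₁ ψ₁ : K₁ ≃ₐ[ℚ] K₁} (h₁ : IsModelDecomp K₁ A₀ φ₁)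
    (h₂ : IsModelDecomp K₁ A₀ ψ₁) : IsModelDecomp K₁ A₀ (φ₁.trans ψ₁) := fun a => by
  obtain ⟨b, hb⟩ := h₁ a
  obtain ⟨c, hc⟩ := h₂ b
  refine ⟨c, ?_⟩
  rw [hc, hb]
  rfl

/-- The mixed second difference `τ(ψ f) f / (τ(f) ψ(f))`. -/
def mixedDiff {E : Type*} [Field E] (τ ψ : E ≃+* E) (f : E) : E := τ (ψ f) * f / (τ f * ψ f)

theorem mixedDiff_self {E : Type*} [Field E] (τ : E ≃+* E) (f : E) :
    mixedDiff τ τ f = secondDiff τ f := by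
  rw [mixedDiff, secondDiff, sq]

/-- **Mixed GAUSS-SD**: for every `f ≠ 0` the mixed second difference `u = τ(ψ f) f / (τ f ψ f)`
(`τ₁` inertia, `ψ₁` decomposition) lies in the Gauss closure `C(x)` and `u - 1 ∈ ϖ C(x)`. -/
def ModelGaussMixedStatement (M q : ℕ) [NeZero M] [NeZero q] (x₀ : LaurentSeries ℚ) : Prop :=
  ∀ (K₁ : Type) [Field K₁] [Algebra ℚ K₁] [FiniteDimensional ℚ K₁]
    (A₀ : Type) [CommRing A₀] [IsDomain A₀] [IsDiscreteValuationRing A₀]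
    [Algebra A₀ K₁] [IsFractionRing A₀ K₁]
    [Algebra A₀ (ModelField K₁ (M * q))] [IsScalarTower A₀ K₁ (ModelField K₁ (M * q))],
    ¬ IsUnit ((q : ℕ) : A₀) →
    ∀ (ϖ : A₀), Irreducible ϖ →
    ∀ (x : ModelField K₁ (M * q)), (x : LaurentSeries K₁) = coeffEmb K₁ x₀ →
    ∀ (τ₁ ψ₁ : K₁ ≃ₐ[ℚ] K₁), IsModelInertia K₁ A₀ τ₁ → IsModelDecomp K₁ A₀ ψ₁ →
    ∀ f : ModelField K₁ (M * q), f ≠ 0 →
      mixedDiff (modelSigma K₁ (M * q) τ₁) (modelSigma K₁ (M * q) ψ₁) f ∈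
        gaussClosure A₀ (ModelField K₁ (M * q)) ϖ x ∧
      PiDvdSet A₀ (ModelField K₁ (M * q)) ϖ (gaussClosure A₀ (ModelField K₁ (M * q)) ϖ x)
        (mixedDiff (modelSigma K₁ (M * q) τ₁) (modelSigma K₁ (M * q) ψ₁) f - 1)

/-- **Mixed GAUSS-SD**, from the two-sided `q`-expansion principle and the Atkin-Lehner
adapters. -/
theorem modelGaussMixed (M q : ℕ) [NeZero M] [NeZero q] (hMq : Nat.Coprime M q)
    (x₀ : LaurentSeries ℚ) (hQ : ModelQExp2Statement M q x₀)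
    (hWe : ModelAtkinLehnerExistsStatement) (hWc : ModelAtkinLehnerCommStatement) :
    ModelGaussMixedStatement M q x₀ := by
  intro K₁ _ _ _ A₀ _ _ _ _ _ _ _ hq ϖ hϖ x hx τ₁ ψ₁ hI hD f hf
  obtain ⟨W, hW⟩ := hWe M q hMq K₁
  have hcτ := hWc M q hMq K₁ W hW τ₁
  have hcψ := hWc M q hMq K₁ W hW ψ₁
  have hφ : Function.Injective (algebraMap A₀ K₁) := IsFractionRing.injective A₀ K₁
  have hϖ0 : algebraMap A₀ K₁ ϖ ≠ 0 := fun h0 => hϖ.ne_zero ((map_eq_zero_iff _ hφ).1 h0)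
  have hG := hasGNF_model K₁ A₀ (M * q)
  have hq0 : ((q : ℕ) : K₁) ≠ 0 := by
    haveI : CharZero K₁ := algebraRat.charZero K₁
    exact Nat.cast_ne_zero.2 (NeZero.ne q)
  have hI' : ∀ a : A₀, ∃ b : A₀,
      algebraMap A₀ K₁ b = (τ₁ : K₁ →+* K₁) (algebraMap A₀ K₁ a) ∧ ¬ IsUnit (b - a) := hI
  have hD' : ∀ a : A₀, ∃ b : A₀,
      algebraMap A₀ K₁ b = (ψ₁ : K₁ →+* K₁) (algebraMap A₀ K₁ a) := hD
  have hτ : ∀ z : ModelField K₁ (M * q),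
      ((modelSigma K₁ (M * q) τ₁ z : ModelField K₁ (M * q)) : LaurentSeries K₁) =
        coeffMap (τ₁ : K₁ →+* K₁) (z : LaurentSeries K₁) := fun z => rfl
  have hψ : ∀ z : ModelField K₁ (M * q),
      ((modelSigma K₁ (M * q) ψ₁ z : ModelField K₁ (M * q)) : LaurentSeries K₁) =
        coeffMap (ψ₁ : K₁ →+* K₁) (z : LaurentSeries K₁) := fun z => rfl
  have h1 := inM_mixedDiff _ (ψ₁ : K₁ →+* K₁) hD' hG hϖ q hq0 hq (τ₁ : K₁ →+* K₁) hI'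
    (modelSigma K₁ (M * q) τ₁) hτ (modelSigma K₁ (M * q) ψ₁) hψ f hf
  have hWf : W f ≠ 0 := (EmbeddingLike.map_ne_zero_iff).2 hf
  have h2 := inM_mixedDiff _ (ψ₁ : K₁ →+* K₁) hD' hG hϖ q hq0 hq (τ₁ : K₁ →+* K₁) hI'
    (modelSigma K₁ (M * q) τ₁) hτ (modelSigma K₁ (M * q) ψ₁) hψ (W f) hWf
  have hWu : W (mixedDiff (modelSigma K₁ (M * q) τ₁) (modelSigma K₁ (M * q) ψ₁) f - 1) =
      modelSigma K₁ (M * q) τ₁ (modelSigma K₁ (M * q) ψ₁ (W f)) * W f /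
        (modelSigma K₁ (M * q) τ₁ (W f) * modelSigma K₁ (M * q) ψ₁ (W f)) - 1 := by
    rw [mixedDiff, map_sub, map_one, map_div₀, map_mul, map_mul, hcτ, hcψ, hcτ]
  rw [← hWu] at h2
  change InM (A₀ := A₀) (laurentBaseChange K₁ (modularFunctionFieldFull (M * q)))
    ((mixedDiff (modelSigma K₁ (M * q) τ₁) (modelSigma K₁ (M * q) ψ₁) f - 1 :
      ModelField K₁ (M * q)) : LaurentSeries K₁) at h1
  generalize mixedDiff (modelSigma K₁ (M * q) τ₁) (modelSigma K₁ (M * q) ψ₁) f = u at h1 h2 ⊢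
  constructor
  · refine mem_gaussClosure_of_inV M q x₀ hQ K₁ A₀ hq ϖ hϖ x hx W hW _ ?_ ?_
    · exact InM.inV_of_sub_one _ h1
    · rw [map_sub, map_one] at h2
      exact InM.inV_of_sub_one _ h2
  · refine ⟨algebraMap K₁ (ModelField K₁ (M * q)) (algebraMap A₀ K₁ ϖ)⁻¹ * (u - 1), ?_, ?_⟩
    · refine mem_gaussClosure_of_inV M q x₀ hQ K₁ A₀ hq ϖ hϖ x hx W hW _ ?_ ?_
      · exact InM.inV_div _ h1 hϖ
      · rw [map_mul, W.commutes]
        exact InM.inV_div _ h2 hϖ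
    · rw [IsScalarTower.algebraMap_apply A₀ K₁ (ModelField K₁ (M * q)), ← mul_assoc, ← map_mul,
        mul_inv_cancel₀ hϖ0, map_one, one_mul]

/-- The unconditional-in-`W` corollary shape used by consumers: `modelGaussSD` is the case
`ψ₁ = τ₁`. -/
theorem modelGaussSD_of_mixed (M q : ℕ) [NeZero M] [NeZero q] (x₀ : LaurentSeries ℚ)
    (h : ModelGaussMixedStatement M q x₀) : ModelGaussSDStatement M q x₀ := by
  intro K₁ _ _ _ A₀ _ _ _ _ _ _ _ hq ϖ hϖ x hx σ₁ hI f hf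
  have := h K₁ A₀ hq ϖ hϖ x hx σ₁ σ₁ hI (IsModelDecomp.of_inertia hI) f hf
  rwa [mixedDiff_self] at this

end Fermat.Agent.H7.SS
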