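/-
P-SS rows 646 (SSH-5, GAUSS-SD) and the mixed form, UNCONDITIONAL for a prime `q ∤ M`.  helper7.

* `modelGaussMixed_prime : ModelGaussMixedStatement M q jq`
* `modelGaussSD_prime    : Fermat.Agent.H82.SS.ModelGaussSDStatement M q jq`

(The landed conditional forms `modelGaussSD`, `modelGaussMixed` take the commutation of the
Atkin-Lehner automorphism with the Galois action for ALL coprime pairs as a hypothesis; it is
proved by helper4 for prime `q` only, so the last step is redone here for the given pair.)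
Inputs: helper66 `modelQExp2`, helper62 `modelAtkinLehnerExists`, helper4 `atkinLehnerComm_prime`.
-/
import Fermat.Agent.H7.SS.GaussMixed
import Fermat.Agent.H66.SS.ModelQExp2Final
import Fermat.Agent.H62.SS.AtkinLehnerModel
import Fermat.Agent.H4.SS.AtkinLehnerComm

set_option autoImplicit false
set_option linter.style.haveILetI false
set_option linter.unusedSectionVars false

noncomputable section

namespace Fermat.Agent.H7.SS

open ModularCurve
open Fermat.Agent.H22.KL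
open Fermat.Agent.H48.QExp
open Fermat.Agent.H82.SS

/-- The mixed Gauss condition for ONE pair `(M, q)` and one Atkin-Lehner automorphism `W`
commuting with the two coefficientwise automorphisms. -/
theorem modelGaussMixed_core (M q : ℕ) [NeZero M] [NeZero q] (x₀ : LaurentSeries ℚ)
    (hQ : ModelQExp2Statement M q x₀)
    (K₁ : Type) [Field K₁] [Algebra ℚ K₁] [FiniteDimensional ℚ K₁]
    (A₀ : Type) [CommRing A₀] [IsDomain A₀] [IsDiscreteValuationRing A₀]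
    [Algebra A₀ K₁] [IsFractionRing A₀ K₁]
    [Algebra A₀ (ModelField K₁ (M * q))] [IsScalarTower A₀ K₁ (ModelField K₁ (M * q))]
    (hq : ¬ IsUnit ((q : ℕ) : A₀)) (ϖ : A₀) (hϖ : Irreducible ϖ)
    (x : ModelField K₁ (M * q)) (hx : (x : LaurentSeries K₁) = coeffEmb K₁ x₀)
    (W : ModelField K₁ (M * q) ≃ₐ[K₁] ModelField K₁ (M * q)) (hW : IsAtkinLehnerModel K₁ M q W)
    (τ₁ ψ₁ : K₁ ≃ₐ[ℚ] K₁)
    (hcτ : ∀ z, W (modelSigma K₁ (M * q) τ₁ z) = modelSigma K₁ (M * q) τ₁ (W z))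
    (hcψ : ∀ z, W (modelSigma K₁ (M * q) ψ₁ z) = modelSigma K₁ (M * q) ψ₁ (W z))
    (hI : IsModelInertia K₁ A₀ τ₁) (hD : IsModelDecomp K₁ A₀ ψ₁)
    (f : ModelField K₁ (M * q)) (hf : f ≠ 0) :
    mixedDiff (modelSigma K₁ (M * q) τ₁) (modelSigma K₁ (M * q) ψ₁) f ∈
        gaussClosure A₀ (ModelField K₁ (M * q)) ϖ x ∧
      PiDvdSet A₀ (ModelField K₁ (M * q)) ϖ (gaussClosure A₀ (ModelField K₁ (M * q)) ϖ x)
        (mixedDiff (modelSigma K₁ (M * q) τ₁) (modelSigma K₁ (M * q) ψ₁) f - 1) := by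
  have hφ : Function.Injective (algebraMap A₀ K₁) := IsFractionRing.injective A₀ K₁
  have hϖ0 : algebraMap A₀ K₁ ϖ ≠ 0 := fun h0 => hϖ.ne_zero ((map_eq_zero_iff _ hφ).1 h0)
  have hG := hasGNF_model K₁ A₀ (M * q)
  have hq0 : ((q : ℕ) : K₁) ≠ 0 := by
    haveI : CharZero K₁ := algebraRat.charZero K₁
    exact Nat.cast_ne_zero.2 (NeZero.ne q)
  have hI' : ∀ a : A₀, ∃ b : A₀,
      algebraMap A₀ K₁ b = (τ₁ : K₁ →+* K₁) (algebraMap A₀ K₁ a) ∧ ¬ IsUnit (b - a) := hI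
  have hD' : ∀ a : A₀, ∃ b : A₀,
      algebraMap A₀ K₁ b = (ψ₁ : K₁ →+* K₁) (algebraMap A₀ K₁ a) := hD
  have hτ : ∀ z : ModelField K₁ (M * q),
      ((modelSigma K₁ (M * q) τ₁ z : ModelField K₁ (M * q)) : LaurentSeries K₁) =
        coeffMap (τ₁ : K₁ →+* K₁) (z : LaurentSeries K₁) := fun z => rfl
  have hψ : ∀ z : ModelField K₁ (M * q),
      ((modelSigma K₁ (M * q) ψ₁ z : ModelField K₁ (M * q)) : LaurentSeries K₁) =
        coeffMap (ψ₁ : K₁ →+* K₁) (z : LaurentSeries K₁) := fun z => rfl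
  have h1 := inM_mixedDiff _ (ψ₁ : K₁ →+* K₁) hD' hG hϖ q hq0 hq (τ₁ : K₁ →+* K₁) hI'
    (modelSigma K₁ (M * q) τ₁) hτ (modelSigma K₁ (M * q) ψ₁) hψ f hf
  have hWf : W f ≠ 0 := (EmbeddingLike.map_ne_zero_iff).2 hf
  have h2 := inM_mixedDiff _ (ψ₁ : K₁ →+* K₁) hD' hG hϖ q hq0 hq (τ₁ : K₁ →+* K₁) hI'
    (modelSigma K₁ (M * q) τ₁) hτ (modelSigma K₁ (M * q) ψ₁) hψ (W f) hWf
  have hWu : W (mixedDiff (modelSigma K₁ (M * q) τ₁) (modelSigma K₁ (M * q) ψ₁) f - 1) =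
      modelSigma K₁ (M * q) τ₁ (modelSigma K₁ (M * q) ψ₁ (W f)) * W f /
        (modelSigma K₁ (M * q) τ₁ (W f) * modelSigma K₁ (M * q) ψ₁ (W f)) - 1 := by
    rw [mixedDiff, map_sub, map_one, map_div₀, map_mul, map_mul, hcτ, hcψ, hcτ]
  rw [← hWu] at h2
  change InM (A₀ := A₀) (laurentBaseChange K₁ (modularFunctionFieldFull (M * q)))
    ((mixedDiff (modelSigma K₁ (M * q) τ₁) (modelSigma K₁ (M * q) ψ₁) f - 1 :
      ModelField K₁ (M * q)) : LaurentSeries K₁) at h1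
  generalize mixedDiff (modelSigma K₁ (M * q) τ₁) (modelSigma K₁ (M * q) ψ₁) f = u at h1 h2 ⊢
  constructor
  · refine mem_gaussClosure_of_inV M q x₀ hQ K₁ A₀ hq ϖ hϖ x hx W hW _ ?_ ?_
    · exact InM.inV_of_sub_one _ h1
    · rw [map_sub, map_one] at h2
      exact InM.inV_of_sub_one _ h2
  · refine ⟨algebraMap K₁ (ModelField K₁ (M * q)) (algebraMap A₀ K₁ ϖ)⁻¹ * (u - 1), ?_, ?_⟩
    · refine mem_gaussClosure_of_inV M q x₀ hQ K₁ A₀ hq ϖ hϖ x hx W hW _ ?_ ?_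
      · exact InM.inV_div _ h1 hϖ
      · rw [map_mul, W.commutes]
        exact InM.inV_div _ h2 hϖ
    · rw [IsScalarTower.algebraMap_apply A₀ K₁ (ModelField K₁ (M * q)), ← mul_assoc, ← map_mul,
        mul_inv_cancel₀ hϖ0, map_one, one_mul]

/-- **Mixed GAUSS-SD, unconditional** for a prime `q ∤ M` and `x = j`. -/
theorem modelGaussMixed_prime (M q : ℕ) [NeZero M] [NeZero q] (hq : q.Prime) (hqM : ¬ q ∣ M) :
    ModelGaussMixedStatement M q jq := by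
  intro K₁ _ _ _ A₀ _ _ _ _ _ _ _ hqA ϖ hϖ x hx τ₁ ψ₁ hI hD f hf
  have hcop : Nat.Coprime M q := ((Nat.Prime.coprime_iff_not_dvd hq).2 hqM).symm
  obtain ⟨W, hW⟩ := Fermat.Agent.H62.SS.modelAtkinLehnerExists M q hcop K₁
  exact modelGaussMixed_core M q jq (Fermat.Agent.H66.SS.modelQExp2 M q hq hqM) K₁ A₀ hqA ϖ hϖ
    x hx W hW τ₁ ψ₁
    (fun z => Fermat.Agent.H4.SS.atkinLehnerComm_prime M q hq K₁ W hW τ₁ z)
    (fun z => Fermat.Agent.H4.SS.atkinLehnerComm_prime M q hq K₁ W hW ψ₁ z) hI hD f hf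

/-- **SSH-5 (GAUSS-SD), unconditional** for a prime `q ∤ M` and `x = j`. -/
theorem modelGaussSD_prime (M q : ℕ) [NeZero M] [NeZero q] (hq : q.Prime) (hqM : ¬ q ∣ M) :
    ModelGaussSDStatement M q jq :=
  modelGaussSD_of_mixed M q jq (modelGaussMixed_prime M q hq hqM)

end Fermat.Agent.H7.SS
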